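import Mathlib
import Fermat.Agent.LT.T2.H429.OpsSpec

/-!
# Row LT, tower T2, tool for the sub-leaves of T2.07 (helper91)

OFF-MAIN.  A cusp function of `T2.IsCuspFn` is right invariant under the DIAGONAL positive scalars
`Z⁺` (`T2.IsDiagPosScalar`): such a scalar is the product over the infinite places `w` of scalars
supported at `w` (`A0.IsArchPosScalar w`), under which the function is invariant by
`IsCuspFn.arch_scalar`.  No hypothesis; Mathlib + the frozen vocabulary only.
-/

set_option autoImplicit false

open IsDedekindDomain NumberField MeasureTheory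
open Fermat.Agent.LT.H556.A0
open Fermat.Agent.LT.T2

noncomputable section

namespace Fermat.Agent.LT.T2.H91

variable {K : Type} [Field K] [NumberField K]

open scoped Classical in
/-- The adele with component `x_w` at the infinite places `w ∈ s` and `1` at all other places. -/
def partAdele91 (x : Adl K) (s : Finset (InfinitePlace K)) : Adl K :=
  ((fun w => if w ∈ s then x.1 w else 1), 1)

open scoped Classical in
/-- The adele with component `x_w⁻¹` at the infinite places `w ∈ s` and `1` at all other places. -/
def partAdeleInv91 (x : Adl K) (s : Finset (InfinitePlace K)) : Adl K :=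
  ((fun w => if w ∈ s then (x.1 w)⁻¹ else 1), 1)

open scoped Classical in
theorem partAdele_fst91 (x : Adl K) (s : Finset (InfinitePlace K)) (w : InfinitePlace K) :
    (partAdele91 x s).1 w = if w ∈ s then x.1 w else 1 := rfl

theorem partAdele_snd91 (x : Adl K) (s : Finset (InfinitePlace K)) :
    (partAdele91 x s).2 = 1 := rfl

open scoped Classical in
theorem partAdele_mul_inv91 (x : Adl K) (hx : ∀ w, x.1 w ≠ 0) (s : Finset (InfinitePlace K)) :
    partAdele91 x s * partAdeleInv91 x s = 1 := by
  refine Prod.ext ?_ ?_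
  · funext w
    show (if w ∈ s then x.1 w else 1) * (if w ∈ s then (x.1 w)⁻¹ else 1) = 1
    split_ifs
    · exact mul_inv_cancel₀ (hx w)
    · exact mul_one 1
  · show (1 : FiniteAdeleRing (𝓞 K) K) * 1 = 1
    exact mul_one 1

theorem partAdeleInv_mul91 (x : Adl K) (hx : ∀ w, x.1 w ≠ 0) (s : Finset (InfinitePlace K)) :
    partAdeleInv91 x s * partAdele91 x s = 1 := by
  rw [mul_comm]; exact partAdele_mul_inv91 x hx s

/-- The scalar matrix of `partAdele91 x s`, as an element of `GL₂(𝔸_K)`. -/
def partScalar91 (x : Adl K) (hx : ∀ w, x.1 w ≠ 0) (s : Finset (InfinitePlace K)) : G K :=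
  ⟨Matrix.scalar (Fin 2) (partAdele91 x s), Matrix.scalar (Fin 2) (partAdeleInv91 x s),
    by rw [← map_mul, partAdele_mul_inv91 x hx s, map_one],
    by rw [← map_mul, partAdeleInv_mul91 x hx s, map_one]⟩

theorem partScalar_coe91 (x : Adl K) (hx : ∀ w, x.1 w ≠ 0) (s : Finset (InfinitePlace K)) :
    ((partScalar91 x hx s : G K) : Matrix (Fin 2) (Fin 2) (Adl K))
      = Matrix.scalar (Fin 2) (partAdele91 x s) := rfl

theorem partAdele_empty91 (x : Adl K) : partAdele91 x ∅ = 1 := by
  refine Prod.ext ?_ rfl
  funext w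
  rw [partAdele_fst91]
  simp only [Finset.notMem_empty, if_false]
  rfl

theorem partScalar_empty91 (x : Adl K) (hx : ∀ w, x.1 w ≠ 0) : partScalar91 x hx ∅ = 1 := by
  apply Units.ext
  rw [partScalar_coe91, partAdele_empty91, map_one]
  rfl

open scoped Classical in
theorem partAdele_insert91 (x : Adl K) (s : Finset (InfinitePlace K)) (w : InfinitePlace K)
    (hw : w ∉ s) : partAdele91 x (insert w s) = partAdele91 x s * partAdele91 x {w} := by
  refine Prod.ext ?_ ?_
  · funext w'
    show (if w' ∈ insert w s then x.1 w' else 1)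
      = (if w' ∈ s then x.1 w' else 1) * (if w' ∈ ({w} : Finset _) then x.1 w' else 1)
    by_cases h1 : w' = w
    · subst h1
      simp [hw]
    · by_cases h2 : w' ∈ s
      · simp [h1, h2]
      · simp [h1, h2]
  · show (1 : FiniteAdeleRing (𝓞 K) K) = 1 * 1
    exact (mul_one 1).symm

open scoped Classical in
theorem partScalar_insert91 (x : Adl K) (hx : ∀ w, x.1 w ≠ 0) (s : Finset (InfinitePlace K))
    (w : InfinitePlace K) (hw : w ∉ s) :
    partScalar91 x hx (insert w s) = partScalar91 x hx s * partScalar91 x hx {w} := by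
  apply Units.ext
  rw [Units.val_mul, partScalar_coe91, partScalar_coe91, partScalar_coe91,
    partAdele_insert91 x s w hw, map_mul]

/-- Components of a scalar matrix. -/
theorem scalar_fst91 (x : Adl K) (i j : Fin 2) (w : InfinitePlace K) :
    ((Matrix.scalar (Fin 2) x : Matrix (Fin 2) (Fin 2) (Adl K)) i j).1 w
      = if i = j then x.1 w else 0 := by
  by_cases hij : i = j
  · subst hij
    simp
  · simp only [Matrix.scalar_apply, Matrix.diagonal_apply_ne _ hij, if_neg hij]
    rfl

theorem scalar_snd91 (x : Adl K) (i j : Fin 2) (v : HeightOneSpectrum (𝓞 K)) :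
    ((Matrix.scalar (Fin 2) x : Matrix (Fin 2) (Fin 2) (Adl K)) i j).2 v
      = if i = j then x.2 v else 0 := by
  by_cases hij : i = j
  · subst hij
    simp
  · simp only [Matrix.scalar_apply, Matrix.diagonal_apply_ne _ hij, if_neg hij]
    rfl

/-- The entries of a diagonal positive scalar. -/
theorem diagPos_entries91 {z : G K} (hz : IsDiagPosScalar z) :
    (∀ w, ((z : Matrix (Fin 2) (Fin 2) (Adl K)) 0 0).1 w ≠ 0) ∧
    (z : Matrix (Fin 2) (Fin 2) (Adl K))
      = Matrix.scalar (Fin 2)
          (partAdele91 ((z : Matrix (Fin 2) (Fin 2) (Adl K)) 0 0) Finset.univ) := by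
  obtain ⟨hfin, r, hr, hinf⟩ := hz
  have hent : ∀ (w : InfinitePlace K) (i j : Fin 2),
      InfinitePlace.Completion.extensionEmbedding w
        (((z : Matrix (Fin 2) (Fin 2) (Adl K)) i j).1 w)
        = if i = j then (r : ℂ) else 0 := by
    intro w i j
    have := congrFun (congrFun (hinf w) i) j
    rw [Matrix.diagonal_apply] at this
    exact this
  have hne : ∀ w, ((z : Matrix (Fin 2) (Fin 2) (Adl K)) 0 0).1 w ≠ 0 := by
    intro w h0
    have h := hent w 0 0
    rw [h0, map_zero, if_pos rfl] at h
    exact hr.ne' (by exact_mod_cast h.symm)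
  refine ⟨hne, ?_⟩
  ext i j
  refine Prod.ext ?_ ?_
  · funext w
    have hinj := (InfinitePlace.Completion.extensionEmbedding w).injective
    apply hinj
    rw [hent w i j, scalar_fst91, partAdele_fst91]
    by_cases hij : i = j
    · rw [if_pos hij, if_pos hij, if_pos (Finset.mem_univ w), hent w 0 0, if_pos rfl]
    · rw [if_neg hij, if_neg hij, map_zero]
  · apply FiniteAdeleRing.ext
    intro v
    have h : finComp v z i j = (1 : Matrix (Fin 2) (Fin 2) (v.adicCompletion K)) i j := by
      rw [show finComp v z = 1 from hfin v]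
    have h' : ((z : Matrix (Fin 2) (Fin 2) (Adl K)) i j).2 v
        = (1 : Matrix (Fin 2) (Fin 2) (v.adicCompletion K)) i j := h
    rw [h', scalar_snd91, partAdele_snd91, Matrix.one_apply]
    rfl

/-- The scalar supported at the infinite place `w` is an `A0.IsArchPosScalar w`. -/
theorem partScalar_single_isArch91 {z : G K} (hz : IsDiagPosScalar z) (w : InfinitePlace K) :
    IsArchPosScalar w
      (partScalar91 ((z : Matrix (Fin 2) (Fin 2) (Adl K)) 0 0) (diagPos_entries91 hz).1 {w}) := by
  classical
  obtain ⟨hfin, r, hr, hinf⟩ := hz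
  have h00 : InfinitePlace.Completion.extensionEmbedding w
      (((z : Matrix (Fin 2) (Fin 2) (Adl K)) 0 0).1 w) = (r : ℂ) := by
    have := congrFun (congrFun (hinf w) 0) 0
    rw [Matrix.diagonal_apply, if_pos rfl] at this
    exact this
  refine ⟨⟨?_, ?_⟩, r, hr, ?_⟩
  · intro w' hw' i j
    rw [partScalar_coe91, scalar_fst91, partAdele_fst91, Matrix.one_apply]
    have : w' ∉ ({w} : Finset (InfinitePlace K)) := by simpa using hw'
    rw [if_neg this]
  · intro v
    refine Matrix.ext fun i j => ?_
    show ((partScalar91 ((z : Matrix (Fin 2) (Fin 2) (Adl K)) 0 0) _ {w} :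
      Matrix (Fin 2) (Fin 2) (Adl K)) i j).2 v = (1 : Matrix (Fin 2) (Fin 2) _) i j
    rw [partScalar_coe91, scalar_snd91, partAdele_snd91, Matrix.one_apply]
    rfl
  · refine Matrix.ext fun i j => ?_
    show InfinitePlace.Completion.extensionEmbedding w
      (((partScalar91 ((z : Matrix (Fin 2) (Fin 2) (Adl K)) 0 0) _ {w} :
        Matrix (Fin 2) (Fin 2) (Adl K)) i j).1 w) = _
    rw [partScalar_coe91, scalar_fst91, partAdele_fst91, Matrix.diagonal_apply,
      if_pos (Finset.mem_singleton_self w)]
    by_cases hij : i = j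
    · rw [if_pos hij, if_pos hij, h00]
    · rw [if_neg hij, if_neg hij, map_zero]

/-- **A cusp function is right invariant under the diagonal positive scalars `Z⁺`.** -/
theorem cuspFn_diagPos91 {𝔫 : Ideal (𝓞 K)} {φ : G K → ℂ} (hφ : IsCuspFn 𝔫 φ) {z : G K}
    (hz : IsDiagPosScalar z) (g : G K) : φ (g * z) = φ g := by
  classical
  have hne := (diagPos_entries91 hz).1
  have hz' : z = partScalar91 ((z : Matrix (Fin 2) (Fin 2) (Adl K)) 0 0) hne Finset.univ := by
    apply Units.ext
    rw [partScalar_coe91]
    exact (diagPos_entries91 hz).2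
  have key : ∀ s : Finset (InfinitePlace K), ∀ g : G K,
      φ (g * partScalar91 ((z : Matrix (Fin 2) (Fin 2) (Adl K)) 0 0) hne s) = φ g := by
    intro s
    induction s using Finset.induction_on with
    | empty => intro g; rw [partScalar_empty91, mul_one]
    | insert w s hw ih =>
      intro g
      rw [partScalar_insert91 _ hne s w hw, ← mul_assoc,
        hφ.arch_scalar w _ (partScalar_single_isArch91 hz w), ih]
  rw [hz']
  exact key Finset.univ g

end Fermat.Agent.LT.T2.H91

end
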