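import Mathlib
import Fermat.Agent.LT.T2.H91.ZPlus

/-!
# Row LT, tower T2, sub-leaf T2.07.03 `SubHeckeBdd429` (helper91)

OFF-MAIN.  `‖T_H φ‖² ≤ (#H)² ‖φ‖²` on the cusp functions, from the KEY LEMMA `SubTransl429`
(T2.07.00): Cauchy--Schwarz pointwise, then `∫_D |φ(g h)|² = ∫_D |φ(g)|²` for every `h`
(`|φ|²` is continuous, bounded, left `GL₂(K)`-invariant and right `Z⁺`-invariant,
`cuspFn_diagPos91`).  For a Hecke coset system `#H = q_v + 1`.

Frozen bytes: `LT/T2/H429/OpsSpec.lean` (helper429@dcf706097, sha256 657e0d9a).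
-/

set_option autoImplicit false

open IsDedekindDomain NumberField MeasureTheory
open Fermat.Agent.LT.H556.A0
open Fermat.Agent.LT.T2
open Fermat.Agent.LT.T2.H429

noncomputable section

namespace Fermat.Agent.LT.T2.H91

variable {K : Type} [Field K] [NumberField K]

attribute [local instance] Fermat.Agent.LT.T2.borelG

/-- The square of the `L²`-norm is the integral of `‖ψ‖²` (no integrability hypothesis). -/
theorem nsq_eq_integral91 (F : Frame K) (ψ : G K → ℂ) :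
    nsq F ψ = ∫ g in F.D, ‖ψ g‖ ^ 2 ∂F.μ := by
  unfold nsq pair
  have h : (fun g => ψ g * (starRingEnd ℂ) (ψ g)) = fun g => (((‖ψ g‖ ^ 2 : ℝ)) : ℂ) := by
    funext g
    rw [Complex.mul_conj, Complex.normSq_eq_norm_sq]
  rw [h, integral_complex_ofReal, Complex.ofReal_re]

/-- `g ↦ ‖φ(g h)‖²` is integrable on the domain of the frame, for `φ` continuous and bounded. -/
theorem integrable_sq_transl91 (F : Frame K) {φ : G K → ℂ} (hc : Continuous φ)
    {B : ℝ} (hB : ∀ g : G K, ‖φ g‖ ≤ B) (h : G K) :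
    Integrable (fun g => ‖φ (g * h)‖ ^ 2) (F.μ.restrict F.D) := by
  have : BorelSpace (G K) := ⟨rfl⟩
  have : IsFiniteMeasure (F.μ.restrict F.D) := ⟨by rw [Measure.restrict_apply_univ]; exact F.fin⟩
  have hcont : Continuous fun g : G K => ‖φ (g * h)‖ ^ 2 :=
    ((hc.comp (continuous_mul_right h)).norm).pow 2
  refine Integrable.of_bound hcont.aestronglyMeasurable (B ^ 2) ?_
  refine Filter.Eventually.of_forall fun g => ?_
  rw [Real.norm_of_nonneg (by positivity)]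
  exact pow_le_pow_left₀ (norm_nonneg _) (hB _) 2

/-- **T2.07.03** from the KEY LEMMA T2.07.00. -/
theorem subHeckeBdd_of_transl91 (hT : SubTransl429 K) : SubHeckeBdd429 K := by
  intro 𝔫 c F v _ H _
  refine ⟨(H.card : ℝ) ^ 2, fun φ hφ => ?_⟩
  have : BorelSpace (G K) := ⟨rfl⟩
  obtain ⟨B, hB⟩ := hφ.bdd
  have hB0 : 0 ≤ B := (norm_nonneg _).trans (hB 1)
  -- translation invariance of `∫_D ‖φ‖²`
  have htr : ∀ h : G K,
      ∫ g in F.D, ‖φ (g * h)‖ ^ 2 ∂F.μ = ∫ g in F.D, ‖φ g‖ ^ 2 ∂F.μ := by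
    intro h
    have hcont : Continuous fun g : G K => (((‖φ g‖ ^ 2 : ℝ)) : ℂ) :=
      Complex.continuous_ofReal.comp ((hφ.cont.norm).pow 2)
    have hbdd : ∃ C : ℝ, ∀ g : G K, ‖(((‖φ g‖ ^ 2 : ℝ)) : ℂ)‖ ≤ C := by
      refine ⟨B ^ 2, fun g => ?_⟩
      rw [Complex.norm_real, Real.norm_of_nonneg (by positivity)]
      exact pow_le_pow_left₀ (norm_nonneg _) (hB _) 2
    have hleft : ∀ (γ : GL (Fin 2) K) (g : G K),
        (((‖φ (T1.ratG K γ * g)‖ ^ 2 : ℝ)) : ℂ) = (((‖φ g‖ ^ 2 : ℝ)) : ℂ) := by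
      intro γ g
      have : φ (T1.ratG K γ * g) = φ g := hφ.left_inv γ g
      rw [this]
    have hright : ∀ z : G K, IsDiagPosScalar z → ∀ g : G K,
        (((‖φ (g * z)‖ ^ 2 : ℝ)) : ℂ) = (((‖φ g‖ ^ 2 : ℝ)) : ℂ) := by
      intro z hz g
      rw [cuspFn_diagPos91 hφ hz g]
    have key := hT c.t1 F (fun g => (((‖φ g‖ ^ 2 : ℝ)) : ℂ)) hcont hbdd hleft hright h
    have key' : ((∫ g in F.D, ‖φ (g * h)‖ ^ 2 ∂F.μ : ℝ) : ℂ)
        = ((∫ g in F.D, ‖φ g‖ ^ 2 ∂F.μ : ℝ) : ℂ) := by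
      rw [← integral_complex_ofReal, ← integral_complex_ofReal]
      exact key
    exact_mod_cast key'
  rw [nsq_eq_integral91, nsq_eq_integral91]
  -- Cauchy--Schwarz, pointwise
  have hpt : ∀ g : G K,
      ‖heckeSum H φ g‖ ^ 2 ≤ (H.card : ℝ) * ∑ h ∈ H, ‖φ (g * h)‖ ^ 2 := by
    intro g
    unfold heckeSum
    calc ‖∑ h ∈ H, φ (g * h)‖ ^ 2 ≤ (∑ h ∈ H, ‖φ (g * h)‖) ^ 2 :=
          pow_le_pow_left₀ (norm_nonneg _) (norm_sum_le _ _) 2
      _ ≤ (H.card : ℝ) * ∑ h ∈ H, ‖φ (g * h)‖ ^ 2 := sq_sum_le_card_mul_sum_sq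
  have hint : ∀ h : G K, Integrable (fun g => ‖φ (g * h)‖ ^ 2) (F.μ.restrict F.D) :=
    fun h => integrable_sq_transl91 F hφ.cont hB h
  calc ∫ g in F.D, ‖heckeSum H φ g‖ ^ 2 ∂F.μ
      ≤ ∫ g in F.D, (H.card : ℝ) * ∑ h ∈ H, ‖φ (g * h)‖ ^ 2 ∂F.μ := by
        apply integral_mono_of_nonneg
        · exact Filter.Eventually.of_forall (fun g => by positivity)
        · exact (integrable_finset_sum _ (fun h _ => hint h)).const_mul _
        · exact Filter.Eventually.of_forall hpt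
    _ = (H.card : ℝ) * ∑ h ∈ H, ∫ g in F.D, ‖φ (g * h)‖ ^ 2 ∂F.μ := by
        rw [integral_const_mul, integral_finset_sum _ (fun h _ => hint h)]
    _ = (H.card : ℝ) * ∑ _h ∈ H, ∫ g in F.D, ‖φ g‖ ^ 2 ∂F.μ := by
        simp only [htr]
    _ = (H.card : ℝ) ^ 2 * ∫ g in F.D, ‖φ g‖ ^ 2 ∂F.μ := by
        rw [Finset.sum_const, nsmul_eq_mul]
        ring

end Fermat.Agent.LT.T2.H91

end
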